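import Fermat.Agent.G1.Defs
import Fermat.Agent.GR.E.Model

/-!
G1-E / G1-D: the concrete model (textual port of `GR/E/Model.lean`, `FF` replaced by `FF1`).
`L` a field, `R` a valuation subring of `L` which is a DVR, `FF1 L M ⊆ L((q))`, `𝒪` the Gauss
valuation subring of `FF1 L M`.  This file contains only definitions: it is the interface between
G1-D and G1-E.  `Qb`, `baseFn`, `Certificate`, `chart`, `GaussRing`, `GoodChart` are those of `GR.E`.
-/

set_option autoImplicit false
set_option synthInstance.maxHeartbeats 400000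

noncomputable section

namespace Fermat.Agent.G1.E

open Fermat.Agent.GR Fermat.Agent.GR.E Fermat.Agent.G1 ModularCurve AlgebraicCurve IntermediateField

/-- `u = f / g` with `f` integral and `g` integral with nonzero reduction. -/
def IsGaussInt {L : Type*} [Field L] (R : ValuationSubring L) (N : ℕ) (u : FF1 L N) : Prop :=
  ∃ f g : LaurentSeries L, f ∈ FF1 L N ∧ g ∈ FF1 L N ∧ IsInt R f ∧ IsPrim R g ∧
    (u : LaurentSeries L) * g = f

/-- Everything G1-E needs from G1-D for the model over `R` with base function `h`;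
`𝒪` is the Gauss valuation subring. -/
structure ModelData {L : Type*} [Field L] (R : ValuationSubring L) (N : ℕ) (h : FF1 L N)
    (𝒪 : ValuationSubring (FF1 L N)) : Prop where
  spec : ∀ u, u ∈ 𝒪 ↔ IsGaussInt R N u
  gauss : ∀ ϖ : R, Irreducible ϖ → GaussRing ϖ 𝒪
  ne_zero : h ≠ 0
  mem : h ∈ 𝒪
  inv_mem : h⁻¹ ∈ 𝒪
  transc : Transcendental R h
  finite : Module.Finite (Algebra.adjoin R ({h} : Set (FF1 L N)))
    (integralClosure (Algebra.adjoin R ({h} : Set (FF1 L N))) (FF1 L N))
  good0 : ∀ ϖ : R, Irreducible ϖ → GoodChart ϖ 𝒪 (chart R ({h} : Set (FF1 L N)))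
  good1 : ∀ ϖ : R, Irreducible ϖ → GoodChart ϖ 𝒪 (chart R ({h⁻¹} : Set (FF1 L N)))

/-- What G1-D has to prove for a level `N'` and a base function `H` at a place `A` of `Q̄`. -/
structure HasModel (A : ValuationSubring Qb) (N' : ℕ) (H : LaurentSeries ℤ) : Prop where
  mem : ∀ (K : Type) [Field K] [CharZero K], baseFn K H ∈ FF1 K N'
  transc : Transcendental Qb (⟨baseFn Qb H, mem Qb⟩ : FF1 Qb N')
  finDim : FiniteDimensional Qb⟮(⟨baseFn Qb H, mem Qb⟩ : FF1 Qb N')⟯ (FF1 Qb N')
  model : ∀ (L : IntermediateField ℚ Qb) [FiniteDimensional ℚ L],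
    IsDiscreteValuationRing (A.comap (algebraMap L Qb)) →
    ∃ 𝒪, ModelData (A.comap (algebraMap L Qb)) N' ⟨baseFn L H, mem L⟩ 𝒪

/-- THE INTERFACE D → E. -/
def ModelExists : Prop :=
  ∀ (N : ℕ) [NeZero N] (ℓ : ℕ), ℓ.Prime → ¬ ℓ ∣ N → ∀ A : ValuationSubring Qb, A.LiesOverPrime ℓ →
    ∃ (N' : ℕ) (H : LaurentSeries ℤ), N' ≠ 0 ∧ N ∣ N' ∧
      (∃ k : ℕ, (FF1 Qb N).relfinrank (FF1 Qb N') = ℓ ^ k) ∧ HasModel A N' H

/-- Functoriality of `FF1` in the field of constants. -/
theorem coeffMap_mem_FF1 {K K' : Type*} [Field K] [Field K'] (φ : K →+* K') (N : ℕ)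
    {u : LaurentSeries K} (hu : u ∈ FF1 K N) : coeffMap φ u ∈ FF1 K' N := by
  induction hu using IntermediateField.adjoin_induction with
  | mem x hx =>
    rcases hx with hx | hx
    · obtain ⟨d, hd, hdN, rfl⟩ := hx
      rw [coeffMap_qExpand, coeffMap_jqModC]
      exact FF_le_FF1 K' N (jqModCd_mem_full K' N hdN)
    · obtain ⟨d, hd, b, hdN, hb, rfl⟩ := hx
      rw [coeffMap_uB]
      exact uB_mem_FF1 hdN hb
  | algebraMap c =>
    have : coeffMap φ (algebraMap K (LaurentSeries K) c) = algebraMap K' (LaurentSeries K') (φ c) := by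
      rw [algebraMap_laurentSeries_eq_single, algebraMap_laurentSeries_eq_single, coeffMap_single]
    rw [this]
    exact (FF1 K' N).algebraMap_mem _
  | add x y _ _ hx hy => rw [map_add]; exact add_mem hx hy
  | inv x _ hx => rw [map_inv₀]; exact inv_mem hx
  | mul x y _ _ hx hy => rw [map_mul]; exact mul_mem hx hy

/-- The map `FF1 K N → FF1 K' N` induced by a field homomorphism. -/
def mapFF1 {K K' : Type*} [Field K] [Field K'] (φ : K →+* K') (N : ℕ) : FF1 K N →+* FF1 K' N where
  toFun u := ⟨coeffMap φ u, coeffMap_mem_FF1 φ N u.2⟩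
  map_one' := Subtype.ext (by simp)
  map_mul' a b := Subtype.ext (by simp)
  map_zero' := Subtype.ext (by simp)
  map_add' a b := Subtype.ext (by simp)

@[simp] theorem coe_mapFF1 {K K' : Type*} [Field K] [Field K'] (φ : K →+* K') (N : ℕ)
    (u : FF1 K N) : (mapFF1 φ N u : LaurentSeries K') = coeffMap φ u := rfl

end Fermat.Agent.G1.E
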