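import Fermat.Agent.G1.A.Base

/-!
# G1-E/D: the index `[±Γ₁(N) : ±Γ₁(N r)]` for a prime `r ∤ N`

* `relIndex_Gamma1_mul_prime`: `[Γ₁(N) : Γ₁(N r)] = r ^ 2 - 1` (orbit–stabiliser for the action on
  the column vectors mod `r`);
* `relIndex_Gamma1_Gpm`: `[±Γ₁(M) : Γ₁(M)] ∈ {1, 2}`;
* `exists_relIndex_Gpm_three`, `exists_relIndex_Gpm_two`: `[±Γ₁(N) : ±Γ₁(3N)]` is a power of `2`,
  `[±Γ₁(N) : ±Γ₁(2N)]` is a power of `3`.
-/

set_option autoImplicit false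

open CongruenceSubgroup
open scoped MatrixGroups

namespace Fermat.Agent.G1.E

open Fermat.Agent.G1.A

section Action

variable (N r : ℕ)

/-- the action of `Γ₁(N)` on the column vectors mod `r`. -/
@[reducible] def colAction : MulAction (Gamma1 N) (Fin 2 → ZMod r) where
  smul g v := ((g : SL(2, ℤ)).map (Int.castRingHom (ZMod r))).1.mulVec v
  one_smul v := by
    show (((1 : Gamma1 N) : SL(2, ℤ)).map (Int.castRingHom (ZMod r))).1.mulVec v = v
    simp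
  mul_smul g h v := by
    show (((g * h : Gamma1 N) : SL(2, ℤ)).map (Int.castRingHom (ZMod r))).1.mulVec v =
      ((g : SL(2, ℤ)).map (Int.castRingHom (ZMod r))).1.mulVec
        (((h : SL(2, ℤ)).map (Int.castRingHom (ZMod r))).1.mulVec v)
    rw [Matrix.mulVec_mulVec, Subgroup.coe_mul, map_mul, Matrix.SpecialLinearGroup.coe_mul]

attribute [local instance] colAction

theorem colAction_smul (g : Gamma1 N) (x y : ZMod r) :
    g • (![x, y] : Fin 2 → ZMod r) =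
      ![((g : SL(2, ℤ)) 0 0 : ZMod r) * x + ((g : SL(2, ℤ)) 0 1 : ZMod r) * y,
        ((g : SL(2, ℤ)) 1 0 : ZMod r) * x + ((g : SL(2, ℤ)) 1 1 : ZMod r) * y] := by
  show ((g : SL(2, ℤ)).map (Int.castRingHom (ZMod r))).1.mulVec ![x, y] = _
  ext i
  fin_cases i <;> simp [Matrix.mulVec, dotProduct, Fin.sum_univ_two]

/-- `(1 t; 0 1)`. -/
def upMat (t : ℤ) : Gamma1 N :=
  ⟨⟨!![1, t; 0, 1], by simp [Matrix.det_fin_two]⟩, by rw [Gamma1_mem]; simp⟩

/-- `(1 0; N t 1)`. -/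
def loMat (t : ℤ) : Gamma1 N :=
  ⟨⟨!![1, 0; N * t, 1], by simp [Matrix.det_fin_two]⟩, by rw [Gamma1_mem]; simp⟩

theorem upMat_smul (t : ℤ) (x y : ZMod r) :
    upMat N t • (![x, y] : Fin 2 → ZMod r) = ![x + t * y, y] := by
  rw [colAction_smul]
  simp [upMat]

theorem loMat_smul (t : ℤ) (x y : ZMod r) :
    loMat N t • (![x, y] : Fin 2 → ZMod r) = ![x, N * t * x + y] := by
  rw [colAction_smul]
  simp [loMat]

theorem orbit_colAction [Fact r.Prime] (hrN : ¬ r ∣ N) :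
    MulAction.orbit (Gamma1 N) (![1, 0] : Fin 2 → ZMod r) = {0}ᶜ := by
  have hN : (N : ZMod r) ≠ 0 := by
    rwa [Ne, ZMod.natCast_eq_zero_iff]
  have h1 : ∀ x y : ZMod r, y ≠ 0 →
      (![x, y] : Fin 2 → ZMod r) ∈ MulAction.orbit (Gamma1 N) (![1, 0] : Fin 2 → ZMod r) := by
    intro x y hy
    obtain ⟨k, hk⟩ := ZMod.intCast_surjective (y * (N : ZMod r)⁻¹)
    obtain ⟨m, hm⟩ := ZMod.intCast_surjective ((x - 1) * y⁻¹)
    refine ⟨upMat N m * loMat N k, ?_⟩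
    show (upMat N m * loMat N k) • (![1, 0] : Fin 2 → ZMod r) = _
    rw [mul_smul, loMat_smul, upMat_smul, hk, hm]
    have e1 : (N : ZMod r) * (y * (N : ZMod r)⁻¹) * 1 + 0 = y := by
      field_simp
      ring
    rw [e1]
    have e2 : 1 + (x - 1) * y⁻¹ * y = x := by
      field_simp
      ring
    rw [e2]
  ext v
  have hv : v = ![v 0, v 1] := by
    ext i
    fin_cases i <;> rfl
  constructor
  · rintro ⟨g, rfl⟩ h0
    have h0' : g • (![1, 0] : Fin 2 → ZMod r) = 0 := h0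
    have h2 : g⁻¹ • (g • (![1, 0] : Fin 2 → ZMod r)) = g⁻¹ • (0 : Fin 2 → ZMod r) := by rw [h0']
    rw [inv_smul_smul] at h2
    have h3 : g⁻¹ • (0 : Fin 2 → ZMod r) = 0 := by
      show (((g⁻¹ : Gamma1 N) : SL(2, ℤ)).map (Int.castRingHom (ZMod r))).1.mulVec 0 = 0
      simp
    rw [h3] at h2
    have := congrFun h2 0
    simp at this
  · intro h0
    by_cases hy : v 1 = 0
    · have hx : v 0 ≠ 0 := by
        intro hx
        apply h0
        show v = 0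
        rw [hv, hx, hy]
        ext i
        fin_cases i <;> rfl
      obtain ⟨k, hk⟩ := ZMod.intCast_surjective (-((N : ZMod r)⁻¹ * (v 0)⁻¹))
      have h2 := h1 (v 0) 1 one_ne_zero
      have h3 : loMat N k • (![v 0, 1] : Fin 2 → ZMod r) = v := by
        rw [loMat_smul, hk]
        have e1 : (N : ZMod r) * -((N : ZMod r)⁻¹ * (v 0)⁻¹) * v 0 + 1 = 0 := by
          field_simp
          ring
        rw [e1, ← hy, ← hv]
      rw [← h3]
      exact MulAction.mem_orbit_of_mem_orbit _ h2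
    · rw [hv]
      exact h1 _ _ hy

theorem Index_cast_eq_one_iff (n : ℕ) (x : ℤ) : (x : ZMod n) = 1 ↔ (n : ℤ) ∣ x - 1 := by
  have h := ZMod.intCast_eq_intCast_iff_dvd_sub 1 x n
  rw [Int.cast_one] at h
  rw [eq_comm, h]

theorem stabilizer_colAction (hcop : Nat.Coprime N r) :
    MulAction.stabilizer (Gamma1 N) (![1, 0] : Fin 2 → ZMod r) =
      (Gamma1 (N * r)).subgroupOf (Gamma1 N) := by
  ext g
  rw [MulAction.mem_stabilizer_iff, Subgroup.mem_subgroupOf, colAction_smul]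
  obtain ⟨ha, hd, hc⟩ := (Gamma1_mem N _).1 g.2
  have hdet : (g : SL(2, ℤ)) 0 0 * (g : SL(2, ℤ)) 1 1 - (g : SL(2, ℤ)) 0 1 * (g : SL(2, ℤ)) 1 0 = 1 := by
    have := (g : SL(2, ℤ)).det_coe
    rwa [Matrix.det_fin_two] at this
  rw [Gamma1_mem]
  rw [Index_cast_eq_one_iff] at ha hd
  rw [ZMod.intCast_zmod_eq_zero_iff_dvd] at hc
  have hcop' : IsCoprime (N : ℤ) (r : ℤ) := Nat.isCoprime_iff_coprime.2 hcop
  simp only [Index_cast_eq_one_iff, ZMod.intCast_zmod_eq_zero_iff_dvd, mul_one, mul_zero, add_zero]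
  constructor
  · intro h
    have h0 := congrFun h 0
    have h1 := congrFun h 1
    simp only [Matrix.cons_val_zero, Matrix.cons_val_one] at h0 h1
    rw [Index_cast_eq_one_iff] at h0
    rw [ZMod.intCast_zmod_eq_zero_iff_dvd] at h1
    have hd' : (r : ℤ) ∣ (g : SL(2, ℤ)) 1 1 - 1 := by
      obtain ⟨s, hs⟩ := h0
      obtain ⟨t, ht⟩ := h1
      refine ⟨(g : SL(2, ℤ)) 0 1 * t - s * (g : SL(2, ℤ)) 1 1, ?_⟩
      have e : (g : SL(2, ℤ)) 0 0 = 1 + r * s := by linarith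
      rw [e, ht] at hdet
      linear_combination hdet
    push_cast
    exact ⟨hcop'.mul_dvd ha h0, hcop'.mul_dvd hd hd', hcop'.mul_dvd hc h1⟩
  · rintro ⟨h0, -, h1⟩
    push_cast at h0 h1
    have h0' : (r : ℤ) ∣ (g : SL(2, ℤ)) 0 0 - 1 := (Dvd.intro_left _ rfl).trans h0
    have h1' : (r : ℤ) ∣ (g : SL(2, ℤ)) 1 0 := (Dvd.intro_left _ rfl).trans h1
    rw [(Index_cast_eq_one_iff r _).2 h0', (ZMod.intCast_zmod_eq_zero_iff_dvd _ r).2 h1']

/-- `[Γ₁(N) : Γ₁(N r)] = r² - 1`. -/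
theorem relIndex_Gamma1_mul_prime (hr : r.Prime) (hrN : ¬ r ∣ N) :
    (Gamma1 (N * r)).relIndex (Gamma1 N) + 1 = r ^ 2 := by
  have : Fact r.Prime := ⟨hr⟩
  have hcop : Nat.Coprime N r := ((Nat.Prime.coprime_iff_not_dvd hr).2 hrN).symm
  rw [Subgroup.relIndex, ← stabilizer_colAction N r hcop, MulAction.index_stabilizer,
    orbit_colAction N r hrN]
  have h := Set.ncard_add_ncard_compl ({0} : Set (Fin 2 → ZMod r))
  rw [Set.ncard_singleton] at h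
  rw [add_comm, h, Nat.card_eq_fintype_card, Fintype.card_fun, ZMod.card, Fintype.card_fin]

end Action

/-- `[±Γ₁(M) : Γ₁(M)]` is `1` or `2`. -/
theorem relIndex_Gamma1_Gpm (M : ℕ) :
    ((-1 : SL(2, ℤ)) ∈ Gamma1 M ∧ (Gamma1 M).relIndex (Gpm M) = 1) ∨
      ((-1 : SL(2, ℤ)) ∉ Gamma1 M ∧ (Gamma1 M).relIndex (Gpm M) = 2) := by
  by_cases h : (-1 : SL(2, ℤ)) ∈ Gamma1 M
  · refine Or.inl ⟨h, ?_⟩
    rw [Subgroup.relIndex_eq_one]
    rintro γ (hγ | hγ)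
    · exact hγ
    · have := mul_mem h hγ
      rwa [neg_mul_neg, one_mul] at this
  · refine Or.inr ⟨h, ?_⟩
    rw [Subgroup.relIndex, Subgroup.index_eq_two_iff]
    refine ⟨⟨-1, neg_one_mem_Gpm M⟩, ?_⟩
    rintro ⟨b, hb⟩
    simp only [Subgroup.mem_subgroupOf, Subgroup.coe_mul, mul_neg, mul_one]
    rcases hb with hb | hb
    · refine Or.inr ⟨hb, fun hb' => h ?_⟩
      have := mul_mem hb' (inv_mem hb)
      rwa [neg_mul, mul_inv_cancel] at this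
    · refine Or.inl ⟨hb, fun hb' => h ?_⟩
      have := mul_mem hb (inv_mem hb')
      rwa [neg_mul, mul_inv_cancel] at this

theorem Gamma1_mul_le (N r : ℕ) : Gamma1 (N * r) ≤ Gamma1 N := by
  intro γ hγ
  rw [Gamma1_mem] at hγ ⊢
  simp only [Index_cast_eq_one_iff, ZMod.intCast_zmod_eq_zero_iff_dvd] at hγ ⊢
  push_cast at hγ
  exact ⟨(Dvd.intro _ rfl).trans hγ.1, (Dvd.intro _ rfl).trans hγ.2.1,
    (Dvd.intro _ rfl).trans hγ.2.2⟩

theorem Gpm_mul_le (N r : ℕ) : Gpm (N * r) ≤ Gpm N := by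
  rintro γ (h | h)
  · exact Or.inl (Gamma1_mul_le N r h)
  · exact Or.inr (Gamma1_mul_le N r h)

/-- the basic relation between the indices. -/
theorem relIndex_relation (N r : ℕ) :
    (Gamma1 (N * r)).relIndex (Gpm (N * r)) * (Gpm (N * r)).relIndex (Gpm N) =
      (Gamma1 (N * r)).relIndex (Gamma1 N) * (Gamma1 N).relIndex (Gpm N) := by
  rw [Subgroup.relIndex_mul_relIndex _ _ _ (Gamma1_le_Gpm _) (Gpm_mul_le N r),
    Subgroup.relIndex_mul_relIndex _ _ _ (Gamma1_mul_le N r) (Gamma1_le_Gpm _)]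

/-- `[±Γ₁(N) : ±Γ₁(3N)]` is a power of `2`. -/
theorem exists_relIndex_Gpm_three (N : ℕ) (hN : ¬ 3 ∣ N) :
    ∃ k : ℕ, (Gpm (N * 3)).relIndex (Gpm N) = 2 ^ k := by
  have h1 := relIndex_Gamma1_mul_prime N 3 Nat.prime_three hN
  have h2 := relIndex_relation N 3
  have h8 : (Gamma1 (N * 3)).relIndex (Gamma1 N) = 8 := by omega
  rw [h8] at h2
  rcases relIndex_Gamma1_Gpm (N * 3) with ⟨-, ha⟩ | ⟨-, ha⟩ <;>
    rcases relIndex_Gamma1_Gpm N with ⟨-, hb⟩ | ⟨-, hb⟩ <;> rw [ha, hb] at h2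
  · exact ⟨3, by omega⟩
  · exact ⟨4, by omega⟩
  · exact ⟨2, by omega⟩
  · exact ⟨3, by omega⟩

/-- `[±Γ₁(N) : ±Γ₁(2N)]` is a power of `3`. -/
theorem exists_relIndex_Gpm_two (N : ℕ) (hN : ¬ 2 ∣ N) :
    ∃ k : ℕ, (Gpm (N * 2)).relIndex (Gpm N) = 3 ^ k := by
  have h1 := relIndex_Gamma1_mul_prime N 2 Nat.prime_two hN
  have h2 := relIndex_relation N 2
  have h3 : (Gamma1 (N * 2)).relIndex (Gamma1 N) = 3 := by omega
  rw [h3] at h2
  rcases relIndex_Gamma1_Gpm (N * 2) with ⟨hm, ha⟩ | ⟨-, ha⟩ <;>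
    rcases relIndex_Gamma1_Gpm N with ⟨-, hb⟩ | ⟨hm', hb⟩ <;> rw [ha, hb] at h2
  · exact ⟨1, by omega⟩
  · exact absurd (Gamma1_mul_le N 2 hm) hm'
  · omega
  · exact ⟨1, by omega⟩

end Fermat.Agent.G1.E
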