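import Fermat.Agent.G1.E.Model
import Fermat.Agent.G1.E.Index
import Fermat.Agent.G1.Mono
import Fermat.Agent.G1.C.Basic

/-!
# G1-E, BR10 (port of `GR/E/BR10.lean`): the degree of `X₁(N r) → X₁(N)`

Input: `DegStatement` = `[FF1 ℚ̄ N : ℚ̄(j)] = [SL₂(ℤ) : ±Γ₁(N)]` (G1-A, `DegreeC`).
-/

set_option autoImplicit false
set_option synthInstance.maxHeartbeats 400000

noncomputable section

namespace Fermat.Agent.G1.E

open Fermat.Agent.GR Fermat.Agent.GR.E Fermat.Agent.G1 ModularCurve AlgebraicCurve IntermediateField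

/-- INTERFACE (G1-A, port of `GR.A.finrank_FF`). -/
def DegStatement : Prop :=
  ∀ (N : ℕ) [NeZero N], Nat.card (A.Cosets1 N) = Module.finrank Qb⟮C.jF Qb N⟯ (FF1 Qb N)

/-- The degree of `FF1 Q̄ N` over `Q̄(j)`, in relative form. -/
theorem BR10_relfinrank_j (hdeg : DegStatement) (N : ℕ) [NeZero N] :
    (Qb⟮jqModC Qb⟯).relfinrank (FF1 Qb N) = (A.Gpm N).index := by
  rw [Subgroup.index, hdeg N, ← relfinrank_top_right,
    ← relfinrank_map_map _ _ (FF1 Qb N).val]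
  congr 1
  · rw [adjoin_map, Set.image_singleton]
    rfl
  · rw [← AlgHom.fieldRange_eq_map, fieldRange_val]

theorem BR10_j_le (N : ℕ) : Qb⟮jqModC Qb⟯ ≤ FF1 Qb N := by
  rw [adjoin_simple_le_iff]
  exact C.jqModC_mem_FF1 Qb N

/-- BR10b. Degree of `X₁(N r) → X₁(N)`. -/
theorem relfinrank_FF1_mul (hdeg : DegStatement) (N : ℕ) [NeZero N] (r : ℕ) [NeZero r] :
    (FF1 Qb N).relfinrank (FF1 Qb (N * r)) = (A.Gpm (N * r)).relIndex (A.Gpm N) := by
  have : NeZero (N * r) := ⟨mul_ne_zero (NeZero.ne N) (NeZero.ne r)⟩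
  have h1 := relfinrank_mul_relfinrank (BR10_j_le N)
    (FF1_mono Qb (Dvd.intro r rfl : N ∣ N * r))
  rw [BR10_relfinrank_j hdeg, BR10_relfinrank_j hdeg,
    ← Subgroup.relIndex_mul_index (Gpm_mul_le N r), mul_comm] at h1
  exact Nat.eq_of_mul_eq_mul_right (Nat.pos_of_ne_zero Subgroup.FiniteIndex.index_ne_zero) h1

end Fermat.Agent.G1.E
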