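import Fermat.Agent.G1.E.Model

set_option autoImplicit false
set_option synthInstance.maxHeartbeats 400000

noncomputable section

namespace Fermat.Agent.G1.E

open Fermat.Agent.GR Fermat.Agent.GR.E ModularCurve AlgebraicCurve IntermediateField

/-- An element integral over `K[x]` lies in every valuation subring containing `K` and `x`. -/
theorem BR2_mem_of_isIntegral {L F : Type*} [Field L] [Field F] [Algebra L F]
    (V : ValuationSubring F) (hL : ∀ c : L, algebraMap L F c ∈ V) (x : F) (hx : x ∈ V) (y : F)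
    (hy : IsIntegral (Algebra.adjoin L ({x} : Set F)) y) : y ∈ V := by
  let S' : Subalgebra L F := { V.toSubring.toSubsemiring with algebraMap_mem' := hL }
  have hle : Algebra.adjoin L ({x} : Set F) ≤ S' := by
    apply Algebra.adjoin_le
    intro z hz
    rw [Set.mem_singleton_iff] at hz
    rw [hz]
    exact hx
  let f : ↥(Algebra.adjoin L ({x} : Set F)) →+* ↥V :=
    RingHom.codRestrict (algebraMap (↥(Algebra.adjoin L ({x} : Set F))) F) V (fun a => hle a.2)
  obtain ⟨p, hpm, hpe⟩ := hy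
  have hint : IsIntegral ↥V y := by
    refine ⟨p.map f, hpm.map f, ?_⟩
    rw [Polynomial.eval₂_map]
    exact hpe
  obtain ⟨v, hv⟩ := (IsIntegrallyClosed.isIntegral_iff (R := ↥V) (K := F)).mp hint
  rw [← hv]
  exact v.2

/-- One chart. -/
theorem BR2_of_certificate_of_mem {L F : Type*} [Field L] [Field F] [Algebra L F]
    (V : ValuationSubring F) (hL : ∀ c : L, algebraMap L F c ∈ V) (x : F) (hx : x ∈ V) (n : ℕ)
    (w : F) (c0 : Certificate L x n w) :
    ∃ a : F, a ≠ 0 ∧ a ^ n * w ∈ V ∧ (a ^ n * w)⁻¹ ∈ V := by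
  obtain ⟨m, a, b, ha, hb, hsum⟩ := c0
  have haV : ∀ i, a i ^ n * w ∈ V := fun i => BR2_mem_of_isIntegral V hL x hx _ (ha i)
  have hbV : ∀ i, b i ^ n * w⁻¹ ∈ V := fun i => BR2_mem_of_isIntegral V hL x hx _ (hb i)
  by_cases hw : w = 0
  · refine ⟨1, one_ne_zero, ?_, ?_⟩ <;> simp [hw, V.zero_mem]
  have hm : Nonempty (Fin m) := by
    by_contra hne
    rw [not_nonempty_iff] at hne
    simp at hsum
  rcases Nat.eq_zero_or_pos n with hn | hn
  · obtain ⟨i⟩ := hm
    refine ⟨1, one_ne_zero, ?_, ?_⟩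
    · have := haV i
      simpa [hn] using this
    · have := hbV i
      simpa [hn] using this
  have hpow : ∀ i, (a i * b i) ^ n = (a i ^ n * w) * (b i ^ n * w⁻¹) := by
    intro i
    rw [mul_pow]
    field_simp
  have hcV : ∀ i, a i * b i ∈ V := by
    intro i
    have h1 : (a i * b i) ^ n ∈ V := by
      rw [hpow i]
      exact V.mul_mem _ _ (haV i) (hbV i)
    have hint : IsIntegral ↥V (a i * b i) := by
      refine IsIntegral.of_pow hn ?_
      have : (a i * b i) ^ n = algebraMap ↥V F ⟨_, h1⟩ := rfl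
      rw [this]
      exact isIntegral_algebraMap
    obtain ⟨v, hv⟩ := (IsIntegrallyClosed.isIntegral_iff (R := ↥V) (K := F)).mp hint
    rw [← hv]
    exact v.2
  have hunit : ∃ i, IsUnit (⟨a i * b i, hcV i⟩ : ↥V) := by
    by_contra hcon
    push Not at hcon
    have hmem : ∀ i, (⟨a i * b i, hcV i⟩ : ↥V) ∈ IsLocalRing.maximalIdeal ↥V := fun i =>
      (IsLocalRing.mem_maximalIdeal _).mpr (hcon i)
    have hs : (∑ i, (⟨a i * b i, hcV i⟩ : ↥V)) ∈ IsLocalRing.maximalIdeal ↥V :=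
      Ideal.sum_mem _ (fun i _ => hmem i)
    have h1 : (∑ i, (⟨a i * b i, hcV i⟩ : ↥V)) = 1 := by
      apply Subtype.ext
      rw [AddSubmonoidClass.coe_finsetSum]
      exact hsum
    rw [h1] at hs
    exact (IsLocalRing.mem_maximalIdeal _).mp hs isUnit_one
  obtain ⟨i, hi⟩ := hunit
  obtain ⟨u, hu⟩ := hi
  have hinv : (a i * b i)⁻¹ ∈ V := by
    have h2 : ((u⁻¹ : (↥V)ˣ) : ↥V) * (u : ↥V) = 1 := Units.inv_mul u
    have h3 : (((u⁻¹ : (↥V)ˣ) : ↥V) : F) * (a i * b i) = 1 := by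
      have := congrArg (fun z : ↥V => (z : F)) h2
      simpa [hu] using this
    have h4 : (a i * b i)⁻¹ = (((u⁻¹ : (↥V)ˣ) : ↥V) : F) := (eq_inv_of_mul_eq_one_left h3).symm
    rw [h4]
    exact ((u⁻¹ : (↥V)ˣ) : ↥V).2
  have hne : a i * b i ≠ 0 := by
    intro h0
    have h2 : ((u⁻¹ : (↥V)ˣ) : ↥V) * (u : ↥V) = 1 := Units.inv_mul u
    have := congrArg (fun z : ↥V => (z : F)) h2
    simp [hu, h0] at this
  have hai : a i ≠ 0 := left_ne_zero_of_mul hne
  refine ⟨a i, hai, haV i, ?_⟩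
  have hkey : (a i ^ n * w)⁻¹ = (b i ^ n * w⁻¹) * ((a i * b i)⁻¹) ^ n := by
    have hbi : b i ≠ 0 := right_ne_zero_of_mul hne
    rw [inv_pow, mul_pow, mul_inv, mul_inv]
    have h1 : a i ^ n ≠ 0 := pow_ne_zero n hai
    have h2 : b i ^ n ≠ 0 := pow_ne_zero n hbi
    field_simp
  rw [hkey]
  exact V.mul_mem _ _ (hbV i) (pow_mem hinv n)

/-- BR2. Certificates on both charts give `DivisibleAtPlaces`. -/
theorem divisibleAtPlaces_of_certificate {L F : Type*} [Field L] [Field F] [Algebra L F]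
    (R : ValuationSubring L) (h : F) (n : ℕ) (w : F)
    (c0 : Certificate L h n w) (c1 : Certificate L h⁻¹ n w) : DivisibleAtPlaces R n w := by
  intro V hR hR'
  have hL : ∀ c : L, algebraMap L F c ∈ V := by
    intro c
    rcases R.mem_or_inv_mem c with hc | hc
    · exact hR ⟨c, hc⟩
    · have h1 := hR' ⟨c⁻¹, hc⟩
      have h2 : (algebraMap (↥R) F ⟨c⁻¹, hc⟩)⁻¹ = algebraMap L F c := by
        have : algebraMap (↥R) F ⟨c⁻¹, hc⟩ = algebraMap L F c⁻¹ := rfl
        rw [this, map_inv₀, inv_inv]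
      rwa [h2] at h1
  rcases V.mem_or_inv_mem h with hh | hh
  · exact BR2_of_certificate_of_mem V hL h hh n w c0
  · exact BR2_of_certificate_of_mem V hL h⁻¹ hh n w c1

/-- BR6. Constants. -/
theorem exists_const_of_isIntegral {L : Type*} [Field L] (R : ValuationSubring L) (N : ℕ)
    (φ : L →+* Qb) (c : FF1 L N) (hc : IsIntegral R c) :
    ∃ c₀ : Qb, coeffMap φ (c : LaurentSeries L) = HahnSeries.C c₀ := by
  obtain ⟨p, hpm, hpe⟩ := hc
  let ψ : FF1 L N →+* LaurentSeries Qb := (coeffMap φ).comp (algebraMap (FF1 L N) (LaurentSeries L))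
  have hψ : ψ.comp (algebraMap (↥R) (FF1 L N)) =
      (algebraMap Qb (LaurentSeries Qb)).comp (φ.comp R.subtype) := by
    ext r : 1
    change coeffMap φ (algebraMap L (LaurentSeries L) (r : L)) = algebraMap Qb (LaurentSeries Qb) (φ r)
    rw [algebraMap_laurentSeries_eq_single, algebraMap_laurentSeries_eq_single, coeffMap_single]
  have hint : IsIntegral Qb (coeffMap φ (c : LaurentSeries L)) := by
    refine ⟨p.map (φ.comp R.subtype), hpm.map _, ?_⟩
    rw [Polynomial.eval₂_map, ← hψ]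
    have := congrArg ψ hpe
    rw [Polynomial.hom_eval₂, map_zero] at this
    exact this
  have hdeg : (minpoly Qb (coeffMap φ (c : LaurentSeries L))).degree = 1 :=
    IsAlgClosed.degree_eq_one_of_irreducible Qb (minpoly.irreducible hint)
  obtain ⟨c₀, hc₀⟩ := minpoly.mem_range_of_degree_eq_one Qb _ hdeg
  refine ⟨c₀, ?_⟩
  rw [← hc₀, algebraMap_laurentSeries_eq_single]
  rfl

end Fermat.Agent.G1.E
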