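import Fermat.Agent.GR.E.E7
import Fermat.Agent.GR.E.E8
import Fermat.Agent.GR.E.BR1
import Fermat.Agent.G1.E.BR2
import Fermat.Agent.G1.E.BR3
import Fermat.Agent.GR.E.BR5

set_option autoImplicit false
set_option synthInstance.maxHeartbeats 400000

noncomputable section

namespace Fermat.Agent.G1.E

open Fermat.Agent.GR Fermat.Agent.GR.E ModularCurve AlgebraicCurve IntermediateField

/-- membership in the nonunits, without valuations -/
theorem BR7_mem_nonunits_iff {K : Type*} [Field K] (A : ValuationSubring K) (x : K) :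
    x ∈ A.nonunits ↔ x = 0 ∨ x⁻¹ ∉ A := by
  rw [ValuationSubring.mem_nonunits_iff]
  by_cases hx : x = 0
  · simp [hx]
  · simp only [hx, false_or]
    rw [← ValuationSubring.valuation_le_one_iff, map_inv₀, not_le]
    have h0 : A.valuation x ≠ 0 := (Valuation.ne_zero_iff _).2 hx
    constructor
    · intro h
      exact (one_lt_inv₀ (zero_lt_iff.2 h0)).2 h
    · intro h
      exact (one_lt_inv₀ (zero_lt_iff.2 h0)).1 h

theorem BR7_mem_nonunits_comap {K K' : Type*} [Field K] [Field K'] (φ : K →+* K')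
    (A : ValuationSubring K') (x : K) : x ∈ (A.comap φ).nonunits ↔ φ x ∈ A.nonunits := by
  rw [BR7_mem_nonunits_iff, BR7_mem_nonunits_iff, ValuationSubring.mem_comap, map_inv₀,
    map_eq_zero]

theorem BR7_add_mem_nonunits {K : Type*} [Field K] (A : ValuationSubring K) {x y : K}
    (hx : x ∈ A.nonunits) (hy : y ∈ A.nonunits) : x + y ∈ A.nonunits := by
  rw [ValuationSubring.mem_nonunits_iff] at *
  exact Valuation.map_add_lt _ hx hy

theorem BR7_coeffMap_injective {K K' : Type*} [Field K] [Field K'] (φ : K →+* K') :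
    Function.Injective (coeffMap φ) := (coeffMap φ).injective

theorem BR7_coe_algebraMap {L : Type*} [Field L] (R : ValuationSubring L) (N : ℕ) (r : R) :
    ((algebraMap R (FF1 L N) r : FF1 L N) : LaurentSeries L) = HahnSeries.C (r : L) := by
  have h1 : ((algebraMap R (FF1 L N) r : FF1 L N) : LaurentSeries L) =
      algebraMap L (LaurentSeries L) (r : L) := rfl
  rw [h1, algebraMap_laurentSeries_eq_single]
  rfl

theorem BR7_exists_mul_of_mem_nonunits {L : Type*} [Field L] (R : ValuationSubring L)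
    [IsDiscreteValuationRing R] {ϖ : R} (hϖ : Irreducible ϖ) {d : L} (hd : d ∈ R.nonunits) :
    ∃ r : R, d = (r : L) * (ϖ : L) := by
  rw [ValuationSubring.mem_nonunits_iff_exists_mem_maximalIdeal] at hd
  obtain ⟨hd', hd⟩ := hd
  rw [hϖ.maximalIdeal_eq, Ideal.mem_span_singleton'] at hd
  obtain ⟨r, hr⟩ := hd
  exact ⟨r, (congrArg Subtype.val hr).symm⟩

/-- `(a / b - 1) / ϖ` is Gauss-integral. -/
theorem BR7_isGaussInt {L : Type*} [Field L] (φ : L →+* Qb) (A : ValuationSubring Qb) (N : ℕ)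
    [IsDiscreteValuationRing (A.comap φ)] {ϖ : A.comap φ} (hϖ : Irreducible ϖ)
    (a b : FF1 L N) (hb0 : b ≠ 0)
    (hpa : IsPrim A (coeffMap φ (a : LaurentSeries L)))
    (hib : IsInt A (coeffMap φ (b : LaurentSeries L)))
    (hab : Cong A (coeffMap φ (a : LaurentSeries L)) (coeffMap φ (b : LaurentSeries L))) :
    IsGaussInt (A.comap φ) N ((a / b - 1) / algebraMap (A.comap φ) (FF1 L N) ϖ) := by
  have hϖ0 : (ϖ : L) ≠ 0 := by
    intro h
    exact hϖ.ne_zero (Subtype.ext h)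
  have hP0 : algebraMap (A.comap φ) (FF1 L N) ϖ ≠ 0 := by
    intro h
    have h2 := congrArg (fun x : FF1 L N => (x : LaurentSeries L)) h
    simp only [BR7_coe_algebraMap] at h2
    apply hϖ0
    have h3 := congrArg (fun x : LaurentSeries L => x.coeff 0) h2
    simpa using h3
  refine ⟨((a - b) / algebraMap (A.comap φ) (FF1 L N) ϖ : FF1 L N), b, SetLike.coe_mem _, b.2,
    ?_, ⟨?_, ?_⟩, ?_⟩
  · intro k
    have h1 : (((a - b) / algebraMap (A.comap φ) (FF1 L N) ϖ : FF1 L N) : LaurentSeries L) *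
        HahnSeries.C (ϖ : L) = (a : LaurentSeries L) - (b : LaurentSeries L) := by
      rw [← BR7_coe_algebraMap (A.comap φ) N ϖ]
      have : ((a - b) / algebraMap (A.comap φ) (FF1 L N) ϖ : FF1 L N) *
        algebraMap (A.comap φ) (FF1 L N) ϖ = a - b := div_mul_cancel₀ _ hP0
      exact_mod_cast congrArg (fun x : FF1 L N => (x : LaurentSeries L)) this
    have h2 := congrArg (fun x : LaurentSeries L => x.coeff k) h1
    simp only [HahnSeries.coeff_sub] at h2
    have hd : (a : LaurentSeries L).coeff k - (b : LaurentSeries L).coeff k ∈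
        (A.comap φ).nonunits := by
      rw [BR7_mem_nonunits_comap, map_sub]
      exact hab k
    obtain ⟨r, hr⟩ := BR7_exists_mul_of_mem_nonunits (A.comap φ) hϖ hd
    rw [hr, mul_comm, HahnSeries.C_mul_eq_smul, HahnSeries.coeff_smul, smul_eq_mul, mul_comm] at h2
    rw [mul_right_cancel₀ hϖ0 h2]
    exact r.2
  · intro k
    exact hib k
  · obtain ⟨k, hk⟩ := hpa.2
    refine ⟨k, ?_⟩
    rw [BR7_mem_nonunits_comap]
    intro hbk
    apply hk
    have := BR7_add_mem_nonunits A (hab k) hbk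
    simpa [coeffMap_coeff] using this
  · have : ((a / b - 1) / algebraMap (A.comap φ) (FF1 L N) ϖ : FF1 L N) * b =
        (a - b) / algebraMap (A.comap φ) (FF1 L N) ϖ := by
      field_simp
    exact_mod_cast congrArg (fun x : FF1 L N => (x : LaurentSeries L)) this

/-- the crux over a field of definition `L`. -/
theorem BR7_core {L : Type*} [Field L] (φ : L →+* Qb) (A : ValuationSubring Qb) (N : ℕ)
    (h : FF1 L N) (𝒪 : ValuationSubring (FF1 L N)) [IsDiscreteValuationRing (A.comap φ)]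
    (MD : ModelData (A.comap φ) N h 𝒪) (n : ℕ) (hn0 : n ≠ 0)
    (hn : IsUnit ((n : ℕ) : A.comap φ))
    (a b : FF1 L N) (ha0 : a ≠ 0) (hb0 : b ≠ 0)
    (hpa : IsPrim A (coeffMap φ (a : LaurentSeries L)))
    (hib : IsInt A (coeffMap φ (b : LaurentSeries L)))
    (hab : Cong A (coeffMap φ (a : LaurentSeries L)) (coeffMap φ (b : LaurentSeries L)))
    (hdiv : DivisibleAtPlaces (A.comap φ) n (a / b)) :
    KummerEquiv1 N n (coeffMap φ (b : LaurentSeries L)) (coeffMap φ (a : LaurentSeries L)) := by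
  obtain ⟨ϖ, hϖ⟩ := IsDiscreteValuationRing.exists_irreducible (A.comap φ)
  have hw1 : (a / b - 1) / algebraMap (A.comap φ) (FF1 L N) ϖ ∈ 𝒪 := by
    rw [MD.spec]
    exact BR7_isGaussInt φ A N hϖ a b hb0 hpa hib hab
  obtain ⟨α, hα0, hα1, hα2⟩ := crux_abstract hϖ (MD.gauss ϖ hϖ) MD.mem MD.inv_mem MD.ne_zero
    (MD.good0 ϖ hϖ) (MD.good1 ϖ hϖ) MD.finite hn hw1 hdiv
  have hint := isIntegral_of_mem_chart_of_mem_chart MD.transc hα1 hα2
  obtain ⟨c₀, hc₀⟩ := exists_const_of_isIntegral (A.comap φ) N φ _ hint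
  obtain ⟨γ, hγ⟩ := IsAlgClosed.exists_pow_nat_eq c₀ (Nat.pos_of_ne_zero hn0)
  have hinj := BR7_coeffMap_injective φ
  have hα' : coeffMap φ (α : LaurentSeries L) ≠ 0 := by
    intro h0
    apply hα0
    apply Subtype.ext
    apply hinj
    rw [h0]; simp
  have hb' : coeffMap φ (b : LaurentSeries L) ≠ 0 := by
    intro h0
    apply hb0
    apply Subtype.ext
    apply hinj
    rw [h0]; simp
  have ha' : coeffMap φ (a : LaurentSeries L) ≠ 0 := by
    intro h0
    apply ha0
    apply Subtype.ext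
    apply hinj
    rw [h0]; simp
  have hc : coeffMap φ (α : LaurentSeries L) ^ n *
      (coeffMap φ (a : LaurentSeries L) / coeffMap φ (b : LaurentSeries L)) =
      HahnSeries.C γ ^ n := by
    rw [← map_pow HahnSeries.C, hγ, ← hc₀]
    simp
  have hγ0 : HahnSeries.C γ ≠ (0 : LaurentSeries Qb) := by
    intro h0
    rw [h0, zero_pow hn0] at hc
    exact (mul_ne_zero (pow_ne_zero _ hα') (div_ne_zero ha' hb')) hc
  refine ⟨HahnSeries.C γ / coeffMap φ (α : LaurentSeries L), ?_, div_ne_zero hγ0 hα', ?_⟩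
  · apply div_mem
    · have : (HahnSeries.C γ : LaurentSeries Qb) = algebraMap Qb (LaurentSeries Qb) γ := by
        rw [algebraMap_laurentSeries_eq_single]; rfl
      rw [this]
      exact (FF1 Qb N).algebraMap_mem _
    · exact coeffMap_mem_FF1 φ N α.2
  · rw [div_pow, ← hc]
    field_simp

theorem BR7_cert_descent (L : IntermediateField ℚ Qb) (N n : ℕ) (h w : FF1 L N) (m : ℕ)
    (a b : Fin m → FF1 Qb N)
    (ha : ∀ i, IsIntegral (Algebra.adjoin Qb ({mapFF1 (algebraMap L Qb) N h} : Set (FF1 Qb N)))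
      (a i ^ n * mapFF1 (algebraMap L Qb) N w))
    (hb : ∀ i, IsIntegral (Algebra.adjoin Qb ({mapFF1 (algebraMap L Qb) N h} : Set (FF1 Qb N)))
      (b i ^ n * (mapFF1 (algebraMap L Qb) N w)⁻¹))
    (hsum : ∑ i, a i * b i = 1)
    (ha' : ∀ i, ∃ x : FF1 L N, mapFF1 (algebraMap L Qb) N x = a i)
    (hb' : ∀ i, ∃ x : FF1 L N, mapFF1 (algebraMap L Qb) N x = b i) :
    Certificate L h n w := by
  choose a' ha' using ha'
  choose b' hb' using hb'
  refine ⟨m, a', b', fun i => ?_, fun i => ?_, ?_⟩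
  · apply isIntegral_descent
    rw [map_mul, map_pow, ha']
    exact ha i
  · apply isIntegral_descent
    rw [map_mul, map_pow, hb', map_inv₀]
    exact hb i
  · apply (mapFF1 (algebraMap L Qb) N).injective
    rw [map_sum, map_one, ← hsum]
    simp [ha', hb']

theorem BR7_adjoin_inv {K F : Type*} [Field K] [Field F] [Algebra K F] (x : F) :
    K⟮x⁻¹⟯ = K⟮x⟯ := by
  apply le_antisymm
  · rw [adjoin_simple_le_iff]
    exact inv_mem (mem_adjoin_simple_self K x)
  · rw [adjoin_simple_le_iff]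
    have h2 : (x⁻¹)⁻¹ ∈ K⟮x⁻¹⟯ := inv_mem (mem_adjoin_simple_self K _)
    rwa [inv_inv] at h2

theorem BR7_finiteDimensional_inv {K F : Type*} [Field K] [Field F] [Algebra K F] (x : F)
    (h : FiniteDimensional K⟮x⟯ F) : FiniteDimensional K⟮x⁻¹⟯ F := by
  rw [BR7_adjoin_inv]
  exact h

theorem BR7_transcendental_inv {K F : Type*} [Field K] [Field F] [Algebra K F] {x : F}
    (hx : Transcendental K x) : Transcendental K x⁻¹ :=
  fun h => hx (IsAlgebraic.inv_iff.1 h)

theorem BR7_mapFF_baseFn (L : IntermediateField ℚ Qb) (N : ℕ) (H : LaurentSeries ℤ)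
    (h1 : baseFn L H ∈ FF1 L N) (h2 : baseFn Qb H ∈ FF1 Qb N) :
    mapFF1 (algebraMap L Qb) N ⟨baseFn L H, h1⟩ = ⟨baseFn Qb H, h2⟩ := by
  apply Subtype.ext
  rw [coe_mapFF1]
  show coeffMap (algebraMap L Qb) (coeffMap (Int.castRingHom L) H) =
    coeffMap (Int.castRingHom Qb) H
  rw [coeffMap_coeffMap]
  exact coeffMap_congr (RingHom.ext_int _ _) _

/-- BR7. The crux lemma at a level which has a model. -/
theorem crux_of_hasModel (A : ValuationSubring Qb) (ℓ : ℕ) (hℓ : ℓ.Prime) (hA : A.LiesOverPrime ℓ)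
    (N' : ℕ) (H : LaurentSeries ℤ) (hM : HasModel A N' H) (n : ℕ) (hn : ¬ ℓ ∣ n)
    (a b : LaurentSeries Qb) (ha : a ∈ FF1 Qb N') (hb : b ∈ FF1 Qb N') (hpa : IsPrim A a)
    (hib : IsInt A b) (hab : Cong A a b) (hK : IsKummer1 (M := N') n (a / b)) :
    KummerEquiv1 N' n b a := by
  classical
  have hn0 : n ≠ 0 := by
    rintro rfl
    exact hn (dvd_zero _)
  obtain ⟨hab0, hmem, hdivQ⟩ := hK
  have ha0 : a ≠ 0 := fun h => hab0 (by rw [h, zero_div])
  have hb0 : b ≠ 0 := fun h => hab0 (by rw [h, div_zero])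
  have hwQ0 : (⟨a / b, hmem⟩ : FF1 Qb N') ≠ 0 := fun h => hab0 (congrArg Subtype.val h)
  have := hM.finDim
  obtain ⟨m0, a0, b0, ha0i, hb0i, hs0⟩ := exists_certificate
    (⟨baseFn Qb H, hM.mem Qb⟩ : FF1 Qb N') hM.transc n (Nat.pos_of_ne_zero hn0) _ hwQ0 hdivQ
  have := BR7_finiteDimensional_inv (⟨baseFn Qb H, hM.mem Qb⟩ : FF1 Qb N') hM.finDim
  obtain ⟨m1, a1, b1, ha1i, hb1i, hs1⟩ := exists_certificate
    (⟨baseFn Qb H, hM.mem Qb⟩ : FF1 Qb N')⁻¹ (BR7_transcendental_inv hM.transc) n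
    (Nat.pos_of_ne_zero hn0) _ hwQ0 hdivQ
  obtain ⟨L, hLfin, hL⟩ := exists_level N'
    ({a, b} ∪ (Finset.univ.image (fun i => (a0 i : LaurentSeries Qb)) ∪
      Finset.univ.image (fun i => (b0 i : LaurentSeries Qb))) ∪
      (Finset.univ.image (fun i => (a1 i : LaurentSeries Qb)) ∪
      Finset.univ.image (fun i => (b1 i : LaurentSeries Qb)))) (by
    intro u hu
    simp only [Finset.mem_union, Finset.mem_insert, Finset.mem_singleton, Finset.mem_image,
      Finset.mem_univ, true_and] at hu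
    rcases hu with ((rfl | rfl) | ⟨i, rfl⟩ | ⟨i, rfl⟩) | ⟨i, rfl⟩ | ⟨i, rfl⟩
    · exact ha
    · exact hb
    · exact (a0 i).2
    · exact (b0 i).2
    · exact (a1 i).2
    · exact (b1 i).2)
  have hdesc : ∀ u : FF1 Qb N', (∃ u' ∈ FF1 L N', coeffMap (algebraMap L Qb) u' = u) →
      ∃ x : FF1 L N', mapFF1 (algebraMap L Qb) N' x = u := by
    rintro u ⟨u', hu', hu''⟩
    exact ⟨⟨u', hu'⟩, Subtype.ext hu''⟩
  obtain ⟨aL, haL, haL'⟩ := hL a (by simp)
  obtain ⟨bL, hbL, hbL'⟩ := hL b (by simp)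
  have hda0 : ∀ i, ∃ x : FF1 L N', mapFF1 (algebraMap L Qb) N' x = a0 i := fun i =>
    hdesc _ (hL _ (Finset.mem_union_left _ (Finset.mem_union_right _ (Finset.mem_union_left _
      (Finset.mem_image_of_mem _ (Finset.mem_univ i))))))
  have hdb0 : ∀ i, ∃ x : FF1 L N', mapFF1 (algebraMap L Qb) N' x = b0 i := fun i =>
    hdesc _ (hL _ (Finset.mem_union_left _ (Finset.mem_union_right _ (Finset.mem_union_right _
      (Finset.mem_image_of_mem _ (Finset.mem_univ i))))))
  have hda1 : ∀ i, ∃ x : FF1 L N', mapFF1 (algebraMap L Qb) N' x = a1 i := fun i =>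
    hdesc _ (hL _ (Finset.mem_union_right _ (Finset.mem_union_left _
      (Finset.mem_image_of_mem _ (Finset.mem_univ i)))))
  have hdb1 : ∀ i, ∃ x : FF1 L N', mapFF1 (algebraMap L Qb) N' x = b1 i := fun i =>
    hdesc _ (hL _ (Finset.mem_union_right _ (Finset.mem_union_right _
      (Finset.mem_image_of_mem _ (Finset.mem_univ i)))))
  clear hL hdesc
  have hw : mapFF1 (algebraMap L Qb) N' ((⟨aL, haL⟩ : FF1 L N') / ⟨bL, hbL⟩) = ⟨a / b, hmem⟩ := by
    apply Subtype.ext
    rw [map_div₀]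
    show coeffMap (algebraMap L Qb) aL / coeffMap (algebraMap L Qb) bL = a / b
    rw [haL', hbL']
  have hh := BR7_mapFF_baseFn L N' H (hM.mem L) (hM.mem Qb)
  have c0 : Certificate L (⟨baseFn L H, hM.mem L⟩ : FF1 L N') n
      ((⟨aL, haL⟩ : FF1 L N') / ⟨bL, hbL⟩) := by
    apply BR7_cert_descent L N' n _ _ m0 a0 b0 _ _ hs0 hda0 hdb0
    · rw [hh, hw]; exact ha0i
    · rw [hh, hw]; exact hb0i
  have c1 : Certificate L (⟨baseFn L H, hM.mem L⟩ : FF1 L N')⁻¹ n
      ((⟨aL, haL⟩ : FF1 L N') / ⟨bL, hbL⟩) := by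
    apply BR7_cert_descent L N' n _ _ m1 a1 b1 _ _ hs1 hda1 hdb1
    · rw [map_inv₀, hh, hw]; exact ha1i
    · rw [map_inv₀, hh, hw]; exact hb1i
  have hdiv := divisibleAtPlaces_of_certificate (A.comap (algebraMap L Qb)) _ n _ c0 c1
  have hdvr := isDiscreteValuationRing_comap A ℓ hℓ hA L
  have hnu := isUnit_natCast_comap A ℓ hℓ hA L n hn
  obtain ⟨𝒪, MD⟩ := hM.model L hdvr
  have hfinal := BR7_core (algebraMap L Qb) A N' _ 𝒪 MD n hn0 hnu ⟨aL, haL⟩ ⟨bL, hbL⟩
    (by
      intro h0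
      apply ha0
      have h1 : aL = 0 := congrArg Subtype.val h0
      rw [← haL', h1, map_zero])
    (by
      intro h0
      apply hb0
      have h1 : bL = 0 := congrArg Subtype.val h0
      rw [← hbL', h1, map_zero])
    (by rw [haL']; exact hpa) (by rw [hbL']; exact hib) (by rw [haL', hbL']; exact hab) hdiv
  rw [haL', hbL'] at hfinal
  exact hfinal

end Fermat.Agent.G1.E
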