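import Fermat.Agent.G1.E.Model
import Fermat.Agent.S24.PlacesDedekind
import Fermat.Agent.GR.C.PlaceDown

set_option autoImplicit false
set_option synthInstance.maxHeartbeats 400000

noncomputable section

namespace Fermat.Agent.G1.E

open Fermat.Agent.GR Fermat.Agent.GR.E ModularCurve AlgebraicCurve IntermediateField

/-- BR8b. `IsKummer` goes up along a finite extension of function fields. -/
theorem isKummer_of_le (N N' : ℕ) (hle : FF1 Qb N ≤ FF1 Qb N')
    (hfin : (FF1 Qb N).relfinrank (FF1 Qb N') ≠ 0) (n : ℕ) (u : LaurentSeries Qb)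
    (h : IsKummer1 (M := N) n u) : IsKummer1 (M := N') n u := by
  obtain ⟨h0, hmem, hord⟩ := h
  refine ⟨h0, hle hmem, fun w => ?_⟩
  have h2 : (⟨u, hle hmem⟩ : FF1 Qb N') =
      (IntermediateField.inclusion hle : FF1 Qb N →+* FF1 Qb N') (⟨u, hmem⟩ : FF1 Qb N) := rfl
  rw [h2]
  rcases C.exists_place_restrict (K := Qb) (K' := Qb)
    (IntermediateField.inclusion hle : FF1 Qb N →+* FF1 Qb N')
    (fun a => ⟨a, rfl⟩) w with h | ⟨v, e, h⟩
  · rw [h]; exact dvd_zero _
  · rw [h]; exact (hord v).mul_left e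

end Fermat.Agent.G1.E
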